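/-
S42 glue (helper42): the frozen statement S42 follows from
  * the frozen statement S29 (as a hypothesis `S29Statement`), and
  * the fact that the Galois action on the `p`-torsion of the Frey curve factors through a
    finite level (hypothesis `hfin`; it follows from finiteness of the torsion, see
    `factorsThroughFiniteLevel_of_finite`).
Everything here is elementary glue; no analytic or arithmetic input.
-/
import Mathlib
import Fermat.Prelude.Def_FreyPackage_EigenformResidualAttachment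
import Fermat.Prelude.Def_GaloisRep_Residual

set_option autoImplicit false
set_option linter.style.haveILetI false

open WeierstrassCurve.Affine.Point Polynomial
open scoped WeierstrassCurve.Affine

noncomputable section

namespace Fermat.Agent.S42.Glue

/-- The frozen statement S29, as a proposition. -/
def S29Statement : Prop :=
  ∀ {N : ℕ} {g : CuspForm (CongruenceSubgroup.Gamma0 N) 2} (_ : g.IsNormalizedEigenform)
    {p : ℕ} (_ : p.Prime) {k : Type} [Field k] [CharP k p]
    (φ : integralClosure ℤ ℂ →+* k),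
    ∃ ρ : ResidualGaloisRep k, ρ.IsAttachedTo g φ ∧
      ∀ ℓ : ℕ, ℓ.Prime → ¬ ℓ ∣ N * p → ρ.IsUnramifiedAt ℓ

/-- In dimension two the characteristic polynomial determines trace and determinant. -/
theorem trace_det_of_charpoly {K V : Type*} [Field K] [AddCommGroup V] [Module K V]
    [Module.Finite K V] (h2 : Module.finrank K V = 2) (f : V →ₗ[K] V) (a d : K)
    (hf : f.charpoly = X ^ 2 - C a * X + C d) :
    LinearMap.trace K V f = a ∧ LinearMap.det f = d := by
  let b : Module.Basis (Fin 2) K V := Module.finBasisOfFinrankEq K V h2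
  have hM : (LinearMap.toMatrix b b f).charpoly = X ^ 2 - C a * X + C d := by
    rw [LinearMap.charpoly_toMatrix, hf]
  constructor
  · rw [LinearMap.trace_eq_matrix_trace K b f, Matrix.trace_eq_neg_charpoly_coeff, hM]
    simp [coeff_C]
  · rw [← LinearMap.det_toMatrix b f, Matrix.det_eq_sign_charpoly_coeff, hM]
    simp [coeff_X, coeff_C]

/-- The quotient of the ring of algebraic integers by a maximal ideal containing `p` has
characteristic `p`. -/
theorem charP_quotient {R : Type*} [CommRing R] (𝔪 : Ideal R) [h𝔪 : 𝔪.IsMaximal] {p : ℕ}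
    (hp : p.Prime) (hmem : (p : R) ∈ 𝔪) : CharP (R ⧸ 𝔪) p := by
  letI : Field (R ⧸ 𝔪) := Ideal.Quotient.field 𝔪
  obtain ⟨q, hq⟩ := CharP.exists (R ⧸ 𝔪)
  have h0 : ((p : ℕ) : R ⧸ 𝔪) = 0 := by
    have : (Ideal.Quotient.mk 𝔪) (p : R) = 0 := Ideal.Quotient.eq_zero_iff_mem.mpr hmem
    simpa using this
  have hdvd : q ∣ p := (CharP.cast_eq_zero_iff (R ⧸ 𝔪) q p).mp h0
  rcases (Nat.dvd_prime hp).mp hdvd with h1 | h1
  · exact absurd h1 (CharP.char_ne_one (R ⧸ 𝔪) q)
  · exact h1 ▸ hq

/-- Number field attached to a finite-dimensional normal intermediate field of `ℚ̄`, packaged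
with all the instances the frozen statement asks for. -/
theorem exists_numberField_of_normal (F : IntermediateField ℚ (AlgebraicClosure ℚ))
    [FiniteDimensional ℚ F] [Normal ℚ F] :
    ∃ (F' : Type) (_ : Field F') (_ : NumberField F') (_ : IsGalois ℚ F')
      (_ : Algebra F' (AlgebraicClosure ℚ)) (_ : IsScalarTower ℚ F' (AlgebraicClosure ℚ)),
      ∀ σ : AlgebraicClosure ℚ ≃ₐ[ℚ] AlgebraicClosure ℚ,
        σ ∈ (AlgEquiv.restrictNormalHom (F := ℚ) (K₁ := AlgebraicClosure ℚ) F').ker →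
          ∀ x ∈ F, σ x = x := by
  haveI : NumberField F := NumberField.mk
  haveI : IsGalois ℚ F := ⟨⟩
  refine ⟨F, inferInstance, inferInstance, inferInstance, inferInstance, inferInstance, ?_⟩
  intro σ hσ x hxF
  have h1 : AlgEquiv.restrictNormalHom (F := ℚ) (K₁ := AlgebraicClosure ℚ) F σ = 1 := hσ
  have h2 := AlgEquiv.restrictNormal_commutes σ F ⟨x, hxF⟩
  have h3 : σ.restrictNormal F = 1 := h1
  rw [h3] at h2
  simpa using h2.symm

/-- Number field attached to a finite-dimensional intermediate field of `ℚ̄` (pass to the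
normal closure). -/
theorem exists_numberField (L : IntermediateField ℚ (AlgebraicClosure ℚ))
    [FiniteDimensional ℚ L] :
    ∃ (F' : Type) (_ : Field F') (_ : NumberField F') (_ : IsGalois ℚ F')
      (_ : Algebra F' (AlgebraicClosure ℚ)) (_ : IsScalarTower ℚ F' (AlgebraicClosure ℚ)),
      ∀ σ : AlgebraicClosure ℚ ≃ₐ[ℚ] AlgebraicClosure ℚ,
        σ ∈ (AlgEquiv.restrictNormalHom (F := ℚ) (K₁ := AlgebraicClosure ℚ) F').ker →
          ∀ x ∈ L, σ x = x := by
  haveI : Algebra.IsAlgebraic ℚ (AlgebraicClosure ℚ) := AlgebraicClosure.isAlgebraic ℚ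
  haveI : IsAlgClosure ℚ (AlgebraicClosure ℚ) := ⟨inferInstance, inferInstance⟩
  haveI : Normal ℚ (AlgebraicClosure ℚ) := IsAlgClosure.normal ℚ (AlgebraicClosure ℚ)
  haveI : Normal ℚ ↥(IntermediateField.normalClosure ℚ (↥L) (AlgebraicClosure ℚ)) := by
    have h := normalClosure.normal ℚ L (AlgebraicClosure ℚ)
    convert h
    exact Subsingleton.elim _ _
  haveI : FiniteDimensional ℚ
      ↥(IntermediateField.normalClosure ℚ (↥L) (AlgebraicClosure ℚ)) := by
    have h := normalClosure.is_finiteDimensional ℚ L (AlgebraicClosure ℚ)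
    convert h
  obtain ⟨F', i1, i2, i3, i4, i5, h⟩ :=
    exists_numberField_of_normal (IntermediateField.normalClosure ℚ L (AlgebraicClosure ℚ))
  exact ⟨F', i1, i2, i3, i4, i5, fun σ hσ x hx =>
    h σ hσ x (IntermediateField.le_normalClosure L hx)⟩

/-- The coordinates of a point, as a finite set. -/
def coords {W : WeierstrassCurve ℚ} :
    (W⁄(AlgebraicClosure ℚ)).Point → Set (AlgebraicClosure ℚ)
  | .zero => ∅
  | .some x y _ => {x, y}

theorem coords_finite {W : WeierstrassCurve ℚ} (Q : (W⁄(AlgebraicClosure ℚ)).Point) :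
    (coords Q).Finite := by
  cases Q with
  | zero => exact Set.finite_empty
  | some x y h => exact Set.toFinite {x, y}

theorem smul_eq_self_of_coords {W : WeierstrassCurve ℚ}
    (σ : AlgebraicClosure ℚ ≃ₐ[ℚ] AlgebraicClosure ℚ) (Q : (W⁄(AlgebraicClosure ℚ)).Point)
    (h : ∀ x ∈ coords Q, σ x = x) : σ • Q = Q := by
  cases Q with
  | zero => rfl
  | some x y hQ =>
    have hx : σ x = x := h x (by simp [coords])
    have hy : σ y = y := h y (by simp [coords])
    rw [algEquiv_smul_def]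
    simp only [WeierstrassCurve.Affine.Point.map_some]
    congr 1

/-- If the `n`-torsion of `W(ℚ̄)` is finite, the Galois action on it factors through a finite
level. -/
theorem factorsThroughFiniteLevel_of_finite (W : WeierstrassCurve ℚ) (n : ℕ)
    [Finite (Submodule.torsionBy ℤ (W⁄(AlgebraicClosure ℚ)).Point n)] :
    GaloisFactorsThroughFiniteLevel
      (galoisRepModuleEnd (S := ℚ) (K := AlgebraicClosure ℚ) W n) := by
  haveI : Algebra.IsAlgebraic ℚ (AlgebraicClosure ℚ) := AlgebraicClosure.isAlgebraic ℚ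
  let S : Set (AlgebraicClosure ℚ) :=
    ⋃ Q : Submodule.torsionBy ℤ (W⁄(AlgebraicClosure ℚ)).Point n,
      coords (Q : (W⁄(AlgebraicClosure ℚ)).Point)
  have hS : S.Finite := Set.finite_iUnion fun Q => coords_finite _
  haveI : Finite ↑S := hS.to_subtype
  refine ⟨IntermediateField.adjoin ℚ S,
    IntermediateField.finiteDimensional_adjoin fun x _ => Algebra.IsIntegral.isIntegral x, ?_⟩
  intro σ hσ
  apply LinearMap.ext
  intro Q
  apply Subtype.ext
  show σ • (Q : (W⁄(AlgebraicClosure ℚ)).Point) = Q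
  apply smul_eq_self_of_coords
  intro x hx
  exact hσ x (IntermediateField.subset_adjoin ℚ S (Set.mem_iUnion.mpr ⟨Q, hx⟩))

/-- **S42 from S29.**  The frozen statement S42 follows from the frozen statement S29 and the
fact that the Galois action on the `p`-torsion of the Frey curve factors through a finite
level. -/
theorem eigenformResidualAttachmentAt_of_S29 (hS29 : S29Statement) (P : FreyPackage)
    (hfin : GaloisFactorsThroughFiniteLevel
      (galoisRepModuleEnd (S := ℚ) (K := AlgebraicClosure ℚ) P.freyCurve P.p)) :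
    ∀ M : ℕ, 0 < M → P.EigenformResidualAttachmentAt M := by
  intro M _ g hg 𝔪 h𝔪 hp𝔪
  letI : Field (integralClosure ℤ ℂ ⧸ 𝔪) := Ideal.Quotient.field 𝔪
  haveI : CharP (integralClosure ℤ ℂ ⧸ 𝔪) P.p := charP_quotient 𝔪 P.pp hp𝔪
  letI : Algebra (ZMod P.p) (integralClosure ℤ ℂ ⧸ 𝔪) := ZMod.algebra _ P.p
  obtain ⟨ρ, hatt, -⟩ := hS29 hg P.pp (Ideal.Quotient.mk 𝔪)
  obtain ⟨L1, hL1fin, hL1⟩ := ρ.factorsThroughFiniteLevel
  obtain ⟨L2, hL2fin, hL2⟩ := hfin
  haveI : FiniteDimensional ℚ L1 := hL1fin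
  haveI : FiniteDimensional ℚ L2 := hL2fin
  obtain ⟨F, iF, iNF, iGal, iAlg, iST, hF⟩ := exists_numberField (L1 ⊔ L2)
  have hne : ∀ ℓ : ℕ, ℓ.Prime → ℓ ≠ P.p → ((ℓ : ℕ) : integralClosure ℤ ℂ ⧸ 𝔪) ≠ 0 := by
    intro ℓ hℓ hℓp h0
    have hdvd : P.p ∣ ℓ := (CharP.cast_eq_zero_iff (integralClosure ℤ ℂ ⧸ 𝔪) P.p ℓ).mp h0
    rcases (Nat.dvd_prime hℓ).mp hdvd with h1 | h1
    · exact P.pp.one_lt.ne' h1
    · exact hℓp h1.symm
  refine ⟨integralClosure ℤ ℂ ⧸ 𝔪, inferInstance, inferInstance, ρ.V, inferInstance,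
    inferInstance, ρ.ρ, Ideal.Quotient.mk 𝔪, F, iF, iNF, iGal, iAlg, iST, ?_, ρ.finrank_eq,
    ?_, ?_, ?_⟩
  · intro x hx
    exact Ideal.Quotient.eq_zero_iff_mem.mpr hx
  · intro σ hσ
    have hfix := hF σ hσ
    refine ⟨?_, ?_⟩
    · exact hL2 σ fun x hx => hfix x (le_sup_right (a := L1) hx)
    · exact hL1 σ fun x hx => hfix x (le_sup_left (b := L2) hx)
  · intro ℓ hℓ hℓM hℓp A hA τ hτ
    obtain ⟨a, ha, hchar⟩ := hatt ℓ hℓ hℓM (hne ℓ hℓ hℓp) A hA τ hτ
    exact ⟨a, ha, (trace_det_of_charpoly ρ.finrank_eq _ _ _ hchar).1⟩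
  · intro ℓ hℓ hℓM hℓp A hA τ hτ
    obtain ⟨a, _, hchar⟩ := hatt ℓ hℓ hℓM (hne ℓ hℓ hℓp) A hA τ hτ
    exact (trace_det_of_charpoly ρ.finrank_eq _ _ _ hchar).2

/-- **S42 from S29 and finiteness of the Frey torsion.** -/
theorem eigenformResidualAttachmentAt_of_S29_of_finite (hS29 : S29Statement) (P : FreyPackage)
    (hfin : Finite (Submodule.torsionBy ℤ (P.freyCurve⁄(AlgebraicClosure ℚ)).Point P.p)) :
    ∀ M : ℕ, 0 < M → P.EigenformResidualAttachmentAt M :=
  eigenformResidualAttachmentAt_of_S29 hS29 P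
    (factorsThroughFiniteLevel_of_finite P.freyCurve P.p)

end Fermat.Agent.S42.Glue
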