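/-
S42 row — FINAL REDUCTION (helper42, squad-lead S29/S42): the frozen statement S42 from the single
input that is still open for S29, the S18 hub for prime exponents (`S29.CorePrimeFamily`).

Inputs on main: `S29.S29_of_core_K3` (row-lead helper269), `M4b.K3.pieceK3` (PIECE K3, unconditional),
`S13.H891.T1_frey` (finiteness of the `p`-torsion of the Frey curve), and the glue `S42.Glue`.
-/
import Fermat.Agent.S42.Glue
import Fermat.Agent.S29.Reduce
import Fermat.Agent.S29.M4b.K3.Piece
import Fermat.Agent.S13.H891.Frey

set_option autoImplicit false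

namespace Fermat.Agent.S42

/-- PIECE K3 for all levels and primes, in the shape consumed by `S29.S29_of_core_K3`. -/
theorem pieceK3_family :
    ∀ (N : ℕ) [NeZero N] (p : ℕ), p.Prime → Fermat.Agent.S29.M4b.PieceK3 N p :=
  fun N _ p hp => haveI : NeZero p := ⟨hp.ne_zero⟩; Fermat.Agent.S29.M4b.K3.pieceK3 N p

/-- The frozen statement S29 (as the `Prop` of `S42.Glue`) from the S18 hub. -/
theorem s29Statement_of_core (hcore : Fermat.Agent.S29.CorePrimeFamily) : Glue.S29Statement :=
  fun hg _ hp _ _ _ φ => Fermat.Agent.S29.S29_of_core_K3 hcore pieceK3_family hg hp φ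

/-- **The frozen statement S42 from the S18 hub.** -/
theorem S42_of_core (hcore : Fermat.Agent.S29.CorePrimeFamily) (P : FreyPackage) :
    ∀ M : ℕ, 0 < M → P.EigenformResidualAttachmentAt M :=
  Glue.eigenformResidualAttachmentAt_of_S29_of_finite (s29Statement_of_core hcore) P
    (Fermat.Agent.S13.H891.T1_frey P).2.1

end Fermat.Agent.S42
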