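import Fermat.Agent.S42.Reduce
import Fermat.Agent.S18.H694.CoreFamilyOfNodes
import Fermat.Agent.S18.Mod.H216.NodeMod
import Fermat.Agent.S18.H438.NodeAlg

/-!
# S42 — PLAIN CHAIN TOP (helper42, squad-lead S29/S42)

`Fermat.Agent.S42.result_top` is the statement of frozen S42, proved exactly as
`Fermat.Agent.S42.result`, but in a module that is NOT a statement module: consumers import
`Fermat.Agent.S42.Top` instead of `Fermat.Agent.S42` (lead ruling: plain files import chain
tops, never `SNN.lean`).  Same closure as `S42.lean` minus `Fermat.Statements.S42`.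
-/

set_option autoImplicit false
open FreyPackage

namespace Fermat.Agent.S42

/-- The S18 hub for prime moduli (input of row S29), from the two closed S18 nodes
(plain-top copy of `corePrimeFamily_of_nodes`). -/
theorem corePrimeFamily_top : Fermat.Agent.S29.CorePrimeFamily :=
  fun N _ ℓ p hℓ hp hℓN hℓp A hA =>
    Fermat.Agent.S18.H694.coreFamily_of_nodes
      (fun M _ _ _ hℓM A hA => Fermat.Agent.S18.Mod.H216.node_mod M hℓM A hA)
      Fermat.Agent.S18.H438.node_alg N ℓ hℓ hℓN p
      (fun h => hℓp ((Nat.prime_dvd_prime_iff_eq hℓ hp).mp h)) A hA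

/-- Frozen S42, plain top. -/
theorem result_top (P : FreyPackage) :
    ∀ M : ℕ, 0 < M → P.EigenformResidualAttachmentAt M :=
  S42_of_core corePrimeFamily_top P

end Fermat.Agent.S42
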